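/-
S33, NodeNew, auxiliary leaves for N2 (chief helper165): `p`-th roots of `q`-expansions.
-/
import Fermat.Agent.S33.Old.Bridge
import Fermat.Agent.KLB.Mod.Series

set_option autoImplicit false

noncomputable section

namespace Fermat.Agent.S33.New

open ModularCurve AlgebraicCurve Fermat.Agent.S24 Fermat.Agent.GAL Fermat.Agent.GAL.E
  Fermat.Agent.S18 Fermat.Agent.S33.Old

private theorem root_order_jq : jq.order = -1 := by
  apply le_antisymm
  · exact HahnSeries.order_le_of_coeff_ne_zero (by rw [coeff_jq_neg_one]; exact one_ne_zero)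
  · by_contra h
    rw [not_le] at h
    exact (HahnSeries.coeff_order_eq_zero (x := jq)).not.mpr jq_ne_zero (coeff_jq_of_lt h)

/-- If `n` divides the divisor of `h` and the leading coefficient of the `q`-expansion of `h` is an
`n`-th power in `K`, then the `q`-expansion is an `n`-th power in `K((q))`.
(`KLB.Mod.exists_place_ord_eq_order` for `F = FK K N`, which contains `j` of order `-1`;
`KLB.Mod.exists_pow_eq_laurent'`.) -/
theorem exists_series_pow_eq {K : Type*} [Field K] [CharZero K] [Algebra ℚ K] {N n : ℕ} (hn : 0 < n)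
    (h : FK K N) (h0 : h ≠ 0) (hdvd : ∀ w : Place K (FK K N), (n : ℤ) ∣ w.ord h)
    (hlead : ∃ c : K, c ^ n = (h : LaurentSeries K).leadingCoeff) :
    ∃ z : LaurentSeries K, z ^ n = (h : LaurentSeries K) := by
  have hj : ((jK K N : FK K N) : LaurentSeries K).order = -1 := by
    show (coeffMap (algebraMap ℚ K) jq).order = -1
    rw [KLB.Mod.order_coeffMap_of_injective _ (algebraMap ℚ K).injective, root_order_jq]
  obtain ⟨v, hv⟩ := KLB.Mod.exists_place_ord_eq_order (FK K N) ⟨jK K N, Or.inr hj⟩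
  obtain ⟨c, hc⟩ := hlead
  refine KLB.Mod.exists_pow_eq_laurent' n hn _ (fun h' => h0 (Subtype.ext h')) ?_ c hc
  rw [← hv h h0]
  exact hdvd v

/-- For all large `K₀` the leading coefficient of `u₀` is an `n`-th power in `K₀`
(`ev_mem` for an `n`-th root in `ℚ̄` of the leading coefficient of `u`;
`KLB.Mod.leadingCoeff_coeffMap_of_injective`, `coe_tb`). -/
theorem ev_leadingCoeff_pow {N n : ℕ} (hn : 0 < n) (u : FN N) :
    Ev fun K₀ => ∀ u₀ : FK K₀ N, tb N K₀ u₀ = u →
      ∃ c : K₀, c ^ n = (u₀ : LaurentSeries K₀).leadingCoeff := by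
  obtain ⟨c, hc⟩ := IsAlgClosed.exists_pow_nat_eq (u : LaurentSeries Kbar).leadingCoeff hn
  refine (ev_mem c).mono fun K₀ hcK u₀ hu => ⟨⟨c, hcK⟩, ?_⟩
  apply (algebraMap K₀ Kbar).injective
  rw [map_pow, ← KLB.Mod.leadingCoeff_coeffMap_of_injective _ (algebraMap K₀ Kbar).injective,
    ← coe_tb, hu, ← hc]
  rfl

end Fermat.Agent.S33.New

end
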