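/-
S33, NodeNew, auxiliary leaves for N2 (chief helper165): restriction of an element of the inertia group
to a normal number field, and its action on `FK K₀ N`.
-/
import Fermat.Agent.S33.Old.Bridge
import Fermat.Agent.BAD.LevelQ.Mod.GalDefs
import Fermat.Agent.S30.Defs

set_option autoImplicit false

noncomputable section

namespace Fermat.Agent.S33.New

open ModularCurve Fermat.Agent.S24 Fermat.Agent.GAL Fermat.Agent.GAL.E
  Fermat.Agent.S18 Fermat.Agent.S33.Old Fermat.Agent.BAD.LevelQ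

/-- (`AlgEquiv.restrictNormal`, or directly from `Old.apply_mem_of_normal`). -/
theorem exists_restrict (K₀ : IntermediateField ℚ Kbar) [Normal ℚ K₀] (s : E.GQ) :
    ∃ τ : K₀ ≃+* K₀, ∀ a : K₀, ((τ a : K₀) : Kbar) = s (a : Kbar) :=
  Fermat.Agent.S33.Old.exists_restrict s K₀ (mem_iff_apply_mem_of_normal K₀ s)

/-- an element of the inertia group lies in the decomposition group -/
theorem BrGal_mem_decomposition {A : ValuationSubring Kbar} {s : E.GQ}
    (hs : s ∈ A.inertiaSubgroupIn ℚ) : s ∈ A.decompositionSubgroup ℚ := by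
  obtain ⟨x, -, rfl⟩ := hs
  exact x.2

open scoped Pointwise in
/-- elements of the decomposition group preserve `A` -/
theorem BrGal_apply_mem {A : ValuationSubring Kbar} {s : E.GQ}
    (hs : s ∈ A.decompositionSubgroup ℚ) {a : Kbar} (ha : a ∈ A) : s a ∈ A := by
  have h : s • A = A := hs
  rw [← h]
  exact ⟨a, ha, rfl⟩

/-- elements of the decomposition group preserve `A`, both directions -/
theorem BrGal_apply_mem_iff {A : ValuationSubring Kbar} {s : E.GQ}
    (hs : s ∈ A.decompositionSubgroup ℚ) (a : Kbar) : s a ∈ A ↔ a ∈ A := by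
  refine ⟨fun h => ?_, BrGal_apply_mem hs⟩
  have := BrGal_apply_mem (inv_mem hs) h
  rwa [AlgEquiv.aut_inv, AlgEquiv.symm_apply_apply] at this

/-- inertia acts trivially modulo the maximal ideal -/
theorem BrGal_apply_sub_mem_nonunits {A : ValuationSubring Kbar} {s : E.GQ}
    (hs : s ∈ A.inertiaSubgroupIn ℚ) {a : Kbar} (ha : a ∈ A) : s a - a ∈ A.nonunits := by
  obtain ⟨t, ht, rfl⟩ := hs
  have h1 : MulSemiringAction.toRingAut (A.decompositionSubgroup ℚ)
      (IsLocalRing.ResidueField A) t = 1 := ht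
  have h2 : t • IsLocalRing.residue A ⟨a, ha⟩ = IsLocalRing.residue A ⟨a, ha⟩ :=
    congrArg (fun f => f (IsLocalRing.residue A ⟨a, ha⟩)) h1
  rw [← IsLocalRing.ResidueField.residue_smul, ← sub_eq_zero, ← map_sub,
    IsLocalRing.residue_eq_zero_iff] at h2
  rw [ValuationSubring.mem_nonunits_iff_exists_mem_maximalIdeal]
  exact ⟨_, h2⟩

/-- the nonunits of `A ∩ K₀` -/
theorem BrGal_mem_nonunits_rA (A : ValuationSubring Kbar) (K₀ : IntermediateField ℚ Kbar)
    (x : K₀) : x ∈ (rA A K₀).nonunits ↔ (x : Kbar) ∈ A.nonunits := by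
  by_cases hx : x = 0
  · subst hx
    simp
  · have hx' : (x : Kbar) ≠ 0 := fun h => hx (Subtype.ext h)
    have key : ∀ {F : Type} [Field F] (B : ValuationSubring F) (y : F), y ≠ 0 →
        (y ∈ B.nonunits ↔ y⁻¹ ∉ B) := by
      intro F _ B y hy
      rw [ValuationSubring.mem_nonunits_iff, ← B.valuation_le_one_iff, map_inv₀, not_le]
      have hv : B.valuation y ≠ 0 := (map_ne_zero _).2 hy
      rw [one_lt_inv₀ (zero_lt_iff.2 hv)]
    rw [key _ _ hx, key _ _ hx']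
    have : x⁻¹ ∈ rA A K₀ ↔ ((x⁻¹ : K₀) : Kbar) ∈ A := Iff.rfl
    rw [this]
    simp

variable {K₀ : IntermediateField ℚ Kbar} {s : E.GQ} {τ : K₀ ≃+* K₀}

/-- (coefficientwise: `coe_tb`, `Mod.coe_gal`, `E.coe_galF`, `coeffMap_coeffMap`). -/
theorem tb_gal (hτ : ∀ a : K₀, ((τ a : K₀) : Kbar) = s (a : Kbar)) (N : ℕ) (y : FK K₀ N) :
    tb N K₀ (Mod.gal τ N y) = galF N s (tb N K₀ y) := by
  apply Subtype.ext
  rw [coe_tb, Mod.coe_gal, E.coe_galF, coe_tb, coeffMap_coeffMap, coeffMap_coeffMap]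
  exact coeffMap_congr (RingHom.ext fun a => hτ a) _

theorem comap_restrict (hτ : ∀ a : K₀, ((τ a : K₀) : Kbar) = s (a : Kbar))
    (A : ValuationSubring Kbar) (hs : s ∈ A.inertiaSubgroupIn ℚ) :
    (rA A K₀).comap (τ : K₀ →+* K₀) = rA A K₀ := by
  ext a
  have h1 : a ∈ (rA A K₀).comap (τ : K₀ →+* K₀) ↔ ((τ a : K₀) : Kbar) ∈ A := Iff.rfl
  have h2 : a ∈ rA A K₀ ↔ (a : Kbar) ∈ A := Iff.rfl
  rw [h1, h2, hτ, BrGal_apply_mem_iff (BrGal_mem_decomposition hs)]

theorem restrict_sub_mem_nonunits (hτ : ∀ a : K₀, ((τ a : K₀) : Kbar) = s (a : Kbar))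
    (A : ValuationSubring Kbar) (hs : s ∈ A.inertiaSubgroupIn ℚ) (a : K₀) (ha : a ∈ rA A K₀) :
    τ a - a ∈ (rA A K₀).nonunits := by
  rw [BrGal_mem_nonunits_rA]
  have h : ((τ a - a : K₀) : Kbar) = s (a : Kbar) - (a : Kbar) := by
    rw [← hτ]; rfl
  rw [h]
  exact BrGal_apply_sub_mem_nonunits hs ha

theorem restrict_zeta (hτ : ∀ a : K₀, ((τ a : K₀) : Kbar) = s (a : Kbar)) {p c : ℕ}
    (hc : S30.IsCyc p 1 s c) (ζ : K₀) (hζ : ζ ^ p = 1) : τ ζ = ζ ^ c := by
  apply Subtype.ext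
  rw [hτ]
  have h1 : (ζ : Kbar) ^ p ^ 1 = 1 := by
    rw [pow_one]
    exact_mod_cast congrArg (fun z : K₀ => (z : Kbar)) hζ
  rw [hc _ h1]
  rfl

end Fermat.Agent.S33.New

end
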