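/-
S33, NodeNew, auxiliary leaves for N2 (chief helper165): `p ^ 2` is divisible by `(ζ - 1) ^ (p + 1)`.
-/
import Mathlib
import Fermat.Agent.S24.Defs

set_option autoImplicit false

namespace Fermat.Agent.S33.New

open Fermat.Agent.S24

/-- a root of unity lies in every valuation subring. -/
theorem zeta_mem_of_isPrimitiveRoot (A : ValuationSubring Kbar) {p : ℕ} (hp : p.Prime)
    (ζ : Kbar) (hζ : IsPrimitiveRoot ζ p) : ζ ∈ A := by
  rw [← A.valuation_le_one_iff]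
  have h1 : A.valuation ζ ^ p = 1 := by rw [← map_pow, hζ.pow_eq_one, map_one]
  exact (((pow_eq_one_iff).1 h1).resolve_right hp.ne_zero).le

/-- `p = ∏_{i=1}^{p-1} (1 - ζ ^ i)` (`Polynomial.cyclotomic` evaluated at `1`,
`Polynomial.eval_one_cyclotomic_prime`, `IsPrimitiveRoot` product formula
`Polynomial.cyclotomic_eq_prod_X_sub_primitiveRoots` or `IsPrimitiveRoot.geom_sum`-type identities)
and `1 - ζ ^ i = (1 - ζ) (1 + ζ + ⋯ + ζ ^ (i - 1))` with `ζ ∈ A` (a root of unity is integral: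
`A.valuation ζ = 1`). -/
theorem exists_prime_eq_zeta_sub_one_pow (A : ValuationSubring Kbar) {p : ℕ} (hp : p.Prime)
    (ζ : Kbar) (hζ : IsPrimitiveRoot ζ p) : ∃ e : A, (p : Kbar) = (ζ - 1) ^ (p - 1) * (e : Kbar) := by
  have hζA : ζ ∈ A := zeta_mem_of_isPrimitiveRoot A hp ζ hζ
  have hprod : (p : Kbar) = ∏ μ ∈ primitiveRoots p Kbar, (1 - μ) := by
    have : Fact p.Prime := ⟨hp⟩
    have h := Polynomial.cyclotomic_eq_prod_X_sub_primitiveRoots hζ
    have h2 := congrArg (Polynomial.eval 1) h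
    rw [Polynomial.eval_one_cyclotomic_prime, Polynomial.eval_prod] at h2
    simpa using h2
  have hc : ∀ μ ∈ primitiveRoots p Kbar, ∃ c : A, 1 - μ = (ζ - 1) * (c : Kbar) := by
    intro μ hμ
    have hμ' := (mem_primitiveRoots hp.pos).1 hμ
    have : NeZero p := ⟨hp.ne_zero⟩
    obtain ⟨i, -, rfl⟩ := hζ.eq_pow_of_pow_eq_one hμ'.pow_eq_one
    refine ⟨-∑ k ∈ Finset.range i, (⟨ζ, hζA⟩ : A) ^ k, ?_⟩
    have h3 := mul_geom_sum ζ i
    push_cast
    linear_combination h3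
  choose! c hc using hc
  refine ⟨∏ μ ∈ primitiveRoots p Kbar, c μ, ?_⟩
  rw [hprod, Finset.prod_congr rfl hc, Finset.prod_mul_distrib, Finset.prod_const,
    hζ.card_primitiveRoots, Nat.totient_prime hp]
  push_cast
  rfl

/-- (`2 (p - 1) = (p + 1) + (p - 3)`). -/
theorem exists_sq_eq_zeta_sub_one_pow (A : ValuationSubring Kbar) {p : ℕ} (hp : p.Prime)
    (hp2 : p ≠ 2) (ζ : Kbar) (hζ : IsPrimitiveRoot ζ p) :
    ∃ e : A, (p : Kbar) ^ 2 = (ζ - 1) ^ (p + 1) * (e : Kbar) := by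
  have hζA : ζ ∈ A := zeta_mem_of_isPrimitiveRoot A hp ζ hζ
  obtain ⟨e, he⟩ := exists_prime_eq_zeta_sub_one_pow A hp ζ hζ
  have h3 : 3 ≤ p := by
    have := hp.two_le
    omega
  obtain ⟨k, rfl⟩ : ∃ k, p = k + 3 := ⟨p - 3, by omega⟩
  refine ⟨((⟨ζ, hζA⟩ : A) - 1) ^ k * e ^ 2, ?_⟩
  rw [he]
  have h4 : k + 3 - 1 = k + 2 := by omega
  rw [h4]
  push_cast
  ring

end Fermat.Agent.S33.New
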