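/-
S33, NodeNew, auxiliary leaves for N2 (chief helper165): the Atkin-Lehner involution over a subfield
`K₀ ⊆ ℚ̄` (`BAD.LevelQ.Mod.ww`) is compatible with the one of `C1.ALData`.
-/
import Fermat.Agent.S33.Old.Bridge
import Fermat.Agent.BAD.LevelQ.Mod.AL
import Fermat.Agent.C1.AL

set_option autoImplicit false

noncomputable section

namespace Fermat.Agent.S33.New

open ModularCurve Fermat.Agent.S24 Fermat.Agent.GAL Fermat.Agent.GAL.E Fermat.Agent.C1
  Fermat.Agent.S18 Fermat.Agent.S33.Old Fermat.Agent.BAD.LevelQ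

variable {M q : ℕ} [NeZero M] [NeZero q]

theorem tb_al (K₀ : IntermediateField ℚ Kbar) (f : FK K₀ M) :
    tb (M * q) K₀ (Mod.al K₀ M q f) = heckeAlphaBar Kbar M q (tb M K₀ f) := by
  apply Subtype.ext
  rw [coe_tb, Mod.al, coe_heckeAlphaBar, coe_heckeAlphaBar, coe_tb]

theorem tb_be (K₀ : IntermediateField ℚ Kbar) (f : FK K₀ M) :
    tb (M * q) K₀ (Mod.be K₀ M q f) = heckeBetaBar Kbar M q (tb M K₀ f) := by
  apply Subtype.ext
  rw [coe_tb, Mod.be, coe_heckeBetaBar, coe_heckeBetaBar, coe_tb, HeckeBasic.coeffMap_qExpand]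

/-- Both sides are ring homomorphisms `FK K₀ (M q) → FN (M q)` which agree on `al f`, `be f`
(`Mod.ww_al`, `Mod.ww_be`, `D.w_al`, `D.w_be`, `tb_al`, `tb_be`) and on constants; `FK K₀ (M q)` is
generated over `K₀` by `al (FK K₀ M)` and `be (FK K₀ M)`. -/
theorem tb_ww (hq : q.Prime) (D : ALData M q) (hc : M.Coprime q) (K₀ : IntermediateField ℚ Kbar)
    (y : FK K₀ (M * q)) : tb (M * q) K₀ (Mod.ww K₀ hc y) = D.w (tb (M * q) K₀ y) := by
  have key : (tb (M * q) K₀).comp ((Mod.ww K₀ hc : FK K₀ (M * q) ≃ₐ[K₀] FK K₀ (M * q)) :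
      FK K₀ (M * q) →+* FK K₀ (M * q)) = (D.w : FN (M * q) →+* FN (M * q)).comp (tb (M * q) K₀) := by
    apply S36.Mod.ringHom_ext_JK
    · intro c
      change tb (M * q) K₀ (Mod.ww K₀ hc (algebraMap K₀ _ c)) =
        D.w (tb (M * q) K₀ (algebraMap K₀ _ c))
      rw [AlgEquiv.commutes, S18.Descent.toBar_algebraMap]
      exact (D.w.commutes _).symm
    · intro d hne hd
      change tb (M * q) K₀ (Mod.ww K₀ hc (S36.Mod.JK K₀ (M * q) d hd)) =
        D.w (tb (M * q) K₀ (S36.Mod.JK K₀ (M * q) d hd))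
      by_cases hqd : q ∣ d
      · obtain ⟨d', rfl⟩ := hqd
        have hd' : d' ∣ M := by
          rw [mul_comm M q] at hd
          exact Nat.dvd_of_mul_dvd_mul_left hq.pos hd
        have : NeZero d' := ⟨fun h => hne.out (by rw [h, mul_zero])⟩
        have e : S36.Mod.JK K₀ (M * q) (q * d') hd = Mod.be K₀ M q (S36.Mod.JK K₀ M d' hd') :=
          (S36.Mod.be_JK M q d' hd' hd).symm
        rw [e, Mod.ww_be, tb_al, tb_be, D.w_be]
      · have hcop : Nat.Coprime d q :=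
          Nat.coprime_comm.1 ((Nat.Prime.coprime_iff_not_dvd hq).2 hqd)
        have hd' : d ∣ M := hcop.dvd_of_dvd_mul_right hd
        have e : S36.Mod.JK K₀ (M * q) d hd = Mod.al K₀ M q (S36.Mod.JK K₀ M d hd') :=
          (S36.Mod.al_JK M q d hd').symm
        rw [e, Mod.ww_al, tb_al, tb_be, D.w_al]
  exact congrArg (fun φ : FK K₀ (M * q) →+* FN (M * q) => φ y) key

end Fermat.Agent.S33.New

end
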