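/-
S33, NodeNew, auxiliary leaves for N2 (chief helper165): from `CongD` to Gauss integrality in the sense
of `S18.Vert`.
-/
import Fermat.Agent.S33.New.CongDField
import Fermat.Agent.S33.Old.BridgeGauss

set_option autoImplicit false

noncomputable section

namespace Fermat.Agent.S33.New

open ModularCurve Fermat.Agent.S24 Fermat.Agent.S24.B Fermat.Agent.GAL Fermat.Agent.GAL.E
  Fermat.Agent.C1 Fermat.Agent.S18

variable {A : ValuationSubring Kbar} {q : ℕ} {d : Kbar} {N : ℕ}

/-- `u ≡ 1 mod d` ⇒ `u = 1 + d y` with `y ∈ FN N` Gauss integral, numerator and denominator IN the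
field.  (`y = (u - 1) / d`.  If `y = 0` trivial.  Otherwise `E.exists_scaling` gives
`y = c x₁ / x₂`, `x₁ x₂` integral series in the field with nonzero reductions, i.e.
`RedS A y c _` (`C1.redS_of_scaling`); `CongD.dvd_of_redS`-type Gauss lemma gives `c ∈ A`; take
`P = C c * x₁`, `Q = x₂`.  `Vert.inc A = E.incl A`, `Vert.red A = E.red A` are both
`coeffMap` of the subtype / residue map: `rfl`.) -/
theorem exists_gaussInt_of_congD (hq : q.Prime) (hA : A.LiesOverPrime q) (hd0 : d ≠ 0) (u : FN N)
    (h : CongD A d (u : LaurentSeries Kbar)) :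
    ∃ y : FN N, Vert.IsGaussInt A (FK Kbar N) (y : LaurentSeries Kbar) ∧
      u = 1 + algebraMap Kbar (FN N) d * y := by
  by_cases hu : u = 1
  · subst hu
    refine ⟨0, ⟨0, 1, ?_, ?_, ?_, ?_⟩, by rw [mul_zero, add_zero]⟩
    · rw [map_zero]; exact zero_mem _
    · rw [map_one]; exact one_mem _
    · rw [map_one]; exact one_ne_zero
    · rw [map_zero, map_one, mul_one]; rfl
  · obtain ⟨c, x, y, hx, hy, hc, hrx, hry, hu'⟩ :=
      exists_scaling A q hq hA N (u - 1) (sub_ne_zero.2 hu)
    have hred := RedField.redS_of_scaling hx hy hc hrx hry hu'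
    have hcoe : ((u - 1 : FN N) : LaurentSeries Kbar) = (u : LaurentSeries Kbar) - 1 := rfl
    rw [hcoe] at hred
    obtain ⟨e, he⟩ := h.dvd_of_redS hd0 hred
    refine ⟨algebraMap Kbar (FN N) (e : Kbar) * ((⟨incl A x, hx⟩ : FN N) / ⟨incl A y, hy⟩),
      ⟨HahnSeries.C e * x, y, ?_, hy, hry, ?_⟩, ?_⟩
    · show incl A (HahnSeries.C e * x) ∈ modularFunctionFieldBar N
      rw [map_mul, incl_C]
      exact mul_mem (scaling_C_mem N _) hx
    · show _ * incl A y = incl A (HahnSeries.C e * x)
      rw [map_mul, incl_C, RedField.coe_mul, RedField.coe_div, RedField.coe_algebraMap, mul_assoc,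
        div_mul_cancel₀ _ (RedField.incl_ne_zero hry)]
    · rw [← mul_assoc, ← map_mul, ← he, ← hu']
      ring

end Fermat.Agent.S33.New

end
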